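import Fermat.Agent.A2.Spec
import Fermat.Agent.A2.IF.H429.IF

/-!
# S36 ENGINE, leaf UNR (helper543): the inertia field is an unramified good level

`P` a valuation subring of `ℚ̄` over the prime `q`, `E = ℚ̄^{I_P}` the inertia field.  Then

* `goodField_inertia543` : `E` is a good level for `P` (`A2.GoodField P E`);
* `mul_inv_mem_of_mem_nonunits543` : `q` is a uniformiser of `P ∩ E`: every `e ∈ E ∩ 𝔪_P`
  satisfies `e / q ∈ P`;
* `unramified_inertia543` : the conjunction, i.e. the body of `S36.Eng.Unramified P E q`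
  (so `S36.Eng.InertiaFieldStatement` is `fun q hq P hP => unramified_inertia543 q hq P hP`).

Everything is an assembly of `A2/IF/H429` (helper429): `exists_zpow_of_mem_inertiaField`
(Hilbert theory at finite level), `henselian_RE`, `isAlgClosed_residueField_RE`.
-/

set_option autoImplicit false

namespace Fermat.Agent.S36.H543

open Fermat.Agent.A2 Fermat.Agent.A2.IF.H429

/-- Every nonzero element of the inertia field has the value of a power of `q`. -/
theorem valuation_eq_zpow543 (q : ℕ) (hq : q.Prime) (P : ValuationSubring Qb)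
    (hP : P.LiesOverPrime q) (y : Qb) (hy : y ∈ inertiaField P) (hy0 : y ≠ 0) :
    ∃ k : ℤ, P.valuation y = P.valuation (q : Qb) ^ k := by
  obtain ⟨k, hk⟩ := exists_zpow_of_mem_inertiaField P q hq hP y hy hy0
  refine ⟨k, ?_⟩
  have hq0 : P.valuation (q : Qb) ≠ 0 := valuation_natCast_ne_zero P q hq
  rw [map_div₀, map_zpow₀] at hk
  have h2 : P.valuation (q : Qb) ^ k ≠ 0 := zpow_ne_zero k hq0
  exact (div_eq_one_iff_eq h2).mp hk

/-- **UNR, part 1.**  The inertia field is a good level. -/
theorem goodField_inertia543 (q : ℕ) (hq : q.Prime) (P : ValuationSubring Qb)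
    (hP : P.LiesOverPrime q) :
    GoodField P (IntermediateField.fixedField (P.inertiaSubgroupIn ℚ)) where
  stable := fun τ hτ e he => by
    have h : τ e = e := (mem_inertiaField_iff P).mp he τ hτ
    rw [h]
    exact he
  dvr := isDiscreteValuationRing_RE_of_pow P q hq hP (inertiaField P) 1 Nat.one_pos
    (fun x hx hx0 => by
      rw [pow_one]
      exact valuation_eq_zpow543 q hq P hP x hx hx0)
  henselian := henselian_RE P (inertiaField P) le_rfl
  algClosed := isAlgClosed_residueField_RE P (inertiaField P) q hq hP le_rfl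
  trivial_mod := fun _ hτ _ _ heP => sub_mem_nonunits_of_inertia P hτ heP
  finite_order := fun τ hτ => ⟨1, Nat.one_pos, fun e he => by
    rw [Function.iterate_one]
    exact (mem_inertiaField_iff P).mp he τ hτ⟩

/-- **UNR, part 2.**  `q` is a uniformiser of `P ∩ ℚ̄^{I_P}`. -/
theorem mul_inv_mem_of_mem_nonunits543 (q : ℕ) (hq : q.Prime) (P : ValuationSubring Qb)
    (hP : P.LiesOverPrime q) (e : Qb) (he : e ∈ inertiaField P) (hn : e ∈ P.nonunits) :
    e * ((q : Qb))⁻¹ ∈ P := by
  by_cases he0 : e = 0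
  · rw [he0, zero_mul]
    exact P.zero_mem
  obtain ⟨k, hk⟩ := valuation_eq_zpow543 q hq P hP e he he0
  have hqlt : P.valuation (q : Qb) < 1 := valuation_natCast_lt_one P q hP
  have hq0 : P.valuation (q : Qb) ≠ 0 := valuation_natCast_ne_zero P q hq
  have hlt : P.valuation e < 1 := (ValuationSubring.mem_nonunits_iff P).mp hn
  have hk1 : 1 ≤ k := by
    by_contra hcon
    have hk0 : k ≤ 0 := by omega
    have h1 : (1 : ValuationSubring.ValueGroup P) ≤ P.valuation (q : Qb) ^ k := by
      obtain ⟨n, hn⟩ : ∃ n : ℕ, k = -(n : ℤ) := ⟨k.natAbs, by omega⟩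
      rw [hn, zpow_neg, zpow_natCast]
      have h2 : P.valuation (q : Qb) ^ n ≤ 1 := pow_le_one₀ zero_le hqlt.le
      have h3 : P.valuation (q : Qb) ^ n ≠ 0 := pow_ne_zero n hq0
      exact (one_le_inv₀ (zero_lt_iff.mpr h3)).mpr h2
    rw [← hk] at h1
    exact absurd hlt (not_lt.mpr h1)
  rw [← P.valuation_le_one_iff, map_mul, map_inv₀, hk]
  obtain ⟨n, hn⟩ : ∃ n : ℕ, k = (n : ℤ) + 1 := ⟨(k - 1).toNat, by omega⟩
  rw [hn, zpow_add_one₀ hq0, zpow_natCast, mul_assoc, mul_inv_cancel₀ hq0, mul_one]
  exact pow_le_one₀ zero_le hqlt.le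

/-- **UNR.**  The inertia field of a place `P` over `q` is an unramified good level
(the body of `S36.Eng.Unramified P (S36.Eng.inertiaFld P) q`). -/
theorem unramified_inertia543 (q : ℕ) (hq : q.Prime) (P : ValuationSubring Qb)
    (hP : P.LiesOverPrime q) :
    GoodField P (IntermediateField.fixedField (P.inertiaSubgroupIn ℚ)) ∧
      ∀ e : (IntermediateField.fixedField (P.inertiaSubgroupIn ℚ) : IntermediateField ℚ Qb),
        (e : Qb) ∈ P.nonunits → (e : Qb) * ((q : Qb))⁻¹ ∈ P :=
  ⟨goodField_inertia543 q hq P hP,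
    fun e hn => mul_inv_mem_of_mem_nonunits543 q hq P hP (e : Qb) e.2 hn⟩

end Fermat.Agent.S36.H543
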